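/-
P-CFT / [HASSE] row 952 HS-E (helper79): `pGroupTower : H97.Hasse.PGroupTowerStatement`.

A Galois extension `K ≤ L` (inside `ℚ̄`) of degree `p ^ (n + 1)` contains `M` with `M / K` Galois
of degree `p` and `L / M` Galois of degree `p ^ n`: a subgroup of order `p ^ n` of the Galois
group has index `p`, the smallest prime factor of the order, hence is normal; `M` is its fixed
field.
-/
import Fermat.Agent.H97.Hasse.Interfaces

set_option autoImplicit false
set_option linter.style.haveILetI false

namespace Fermat.Agent.H79.Hasse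

open Fermat.Agent.H78.CFT Fermat.Agent.H97.Hasse IntermediateField

/-- Pure Galois theory: a finite Galois extension `E / F` of degree `p ^ (n + 1)` has an
intermediate field which is Galois over `F` of degree `p`. -/
theorem exists_galois_sub_of_prime_pow (p : ℕ) [Fact p.Prime] (n : ℕ) (F E : Type*) [Field F]
    [Field E] [Algebra F E] [FiniteDimensional F E] [IsGalois F E]
    (hdeg : Module.finrank F E = p ^ (n + 1)) :
    ∃ M : IntermediateField F E, IsGalois F M ∧ Module.finrank F M = p := by
  classical
  have hp : p.Prime := Fact.out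
  have hcard : Nat.card (E ≃ₐ[F] E) = p ^ (n + 1) := by
    rw [IsGalois.card_aut_eq_finrank, hdeg]
  obtain ⟨N, hN⟩ := Sylow.exists_subgroup_card_pow_prime (G := E ≃ₐ[F] E) p (n := n)
    (by rw [hcard]; exact pow_dvd_pow p (Nat.le_succ n))
  have hindex : N.index = p := by
    have h1 := N.card_mul_index
    rw [hN, hcard, pow_succ] at h1
    exact Nat.eq_of_mul_eq_mul_left (pow_pos hp.pos n) h1
  have hnormal : N.Normal := by
    apply Subgroup.normal_of_index_eq_minFac_card
    rw [hindex, hcard, Nat.Prime.pow_minFac hp (Nat.succ_ne_zero n)]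
  refine ⟨IntermediateField.fixedField N, inferInstance, ?_⟩
  have h2 : Module.finrank (IntermediateField.fixedField N) E = p ^ n := by
    rw [IntermediateField.finrank_fixedField_eq_card, hN]
  have h3 := Module.finrank_mul_finrank F (IntermediateField.fixedField N) E
  rw [h2, hdeg, pow_succ, mul_comm] at h3
  exact Nat.eq_of_mul_eq_mul_left (pow_pos hp.pos n) h3

/-- The top layer: if `L / K` is Galois of degree `d` and `K ≤ M ≤ L` with `M / K` of degree
`e`, then `L / M` is Galois of degree `d / e` (stated multiplicatively). -/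
theorem isGalDeg_top {K M L : IntermediateField ℚ Qb} (h₁ : K ≤ M) (h₂ : M ≤ L) {d e f : ℕ}
    (hL : IsGalDeg (h₁.trans h₂) d) (hM : Module.finrank K (extendScalars h₁) = e)
    (he : 0 < e) (hd : d = e * f) : IsGalDeg h₂ f := by
  haveI := hL.fin
  haveI := hL.gal
  letI : Algebra K M := (IntermediateField.inclusion h₁).toRingHom.toAlgebra
  haveI : IsScalarTower K M Qb := IsScalarTower.of_algebraMap_eq fun x => rfl
  -- `L` over `K`, as an intermediate field of `ℚ̄ / M` with its `K`-algebra structure
  let e₂ : (extendScalars (h₁.trans h₂)) ≃ₐ[K] (extendScalars h₂) :=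
    { toFun := fun x => ⟨x.1, x.2⟩
      invFun := fun x => ⟨x.1, x.2⟩
      left_inv := fun _ => rfl
      right_inv := fun _ => rfl
      map_mul' := fun _ _ => rfl
      map_add' := fun _ _ => rfl
      commutes' := fun _ => rfl }
  haveI : FiniteDimensional K (extendScalars h₂) := Module.Finite.equiv e₂.toLinearEquiv
  haveI : IsGalois K (extendScalars h₂) := IsGalois.of_algEquiv e₂
  refine ⟨Module.Finite.right K M (extendScalars h₂),
    IsGalois.tower_top_of_isGalois K M (extendScalars h₂), ?_⟩
  have h3 := relfinrank_mul_relfinrank h₁ h₂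
  rw [relfinrank_eq_finrank_of_le h₁, relfinrank_eq_finrank_of_le h₂,
    relfinrank_eq_finrank_of_le (h₁.trans h₂), hM, hL.deg, hd] at h3
  exact Nat.eq_of_mul_eq_mul_left he h3

/-- **[HS-E] PGroupTower.** -/
theorem pGroupTower : PGroupTowerStatement := by
  intro p _ n K L h hL
  have hp : p.Prime := Fact.out
  haveI := hL.fin
  haveI := hL.gal
  obtain ⟨M', hM'gal, hM'deg⟩ :=
    exists_galois_sub_of_prime_pow p n K (extendScalars h) hL.deg
  let M'' : IntermediateField K Qb := IntermediateField.lift M'
  have h₁ : K ≤ M''.restrictScalars ℚ := le_restrictScalars M''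
  have h₂ : M''.restrictScalars ℚ ≤ L := fun x hx => IntermediateField.lift_le M' hx
  have e : extendScalars h₁ = M'' := by
    ext x
    exact Iff.rfl
  have hdeg₁ : Module.finrank K (extendScalars h₁) = p := by
    rw [e]
    exact (IntermediateField.liftAlgEquiv M').toLinearEquiv.finrank_eq.symm.trans hM'deg
  refine ⟨M''.restrictScalars ℚ, h₁, h₂, ⟨?_, ?_, hdeg₁⟩, ?_⟩
  · rw [e]
    exact Module.Finite.equiv (IntermediateField.liftAlgEquiv M').toLinearEquiv
  · rw [e]
    exact IsGalois.of_algEquiv (IntermediateField.liftAlgEquiv M')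
  · exact isGalDeg_top h₁ h₂ hL hdeg₁ hp.pos (pow_succ' p n)

end Fermat.Agent.H79.Hasse
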